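import Fermat.Agent.S52.Expand.C4
import Fermat.Agent.S52.Expand.D
import Fermat.Agent.S52.Rel
import Fermat.Agent.S52.Forms

/-!
# S52, chapter FAM, task Expand: `c6form` on the line through `(u, v)` in the direction `(-D_v, D_u)`.

A direct verification by `ring` is too expensive.  Instead: the squares of both sides agree (syzygy +
`c4form_shift`, `Dform_shift`, `fam_relation_gen`); in the domain `ℤ[u, v, t]` they agree up to sign, and the
sign is `+` at `(u, v, t) = (0, 1, 0)`.
-/

set_option autoImplicit false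

namespace Fermat.Agent.S52

namespace Expand

section maps

variable {R S : Type*} [CommRing R] [CommRing S] (φ : R →+* S)

theorem c4form_map (u v : R) : φ (c4form u v) = c4form (φ u) (φ v) := by
  simp [c4form, map_ofNat]

theorem c6form_map (u v : R) : φ (c6form u v) = c6form (φ u) (φ v) := by
  simp [c6form, map_ofNat]

theorem Dform_map (u v : R) : φ (Dform u v) = Dform (φ u) (φ v) := by
  simp [Dform, map_ofNat]

theorem DformU_map (u v : R) : φ (DformU u v) = DformU (φ u) (φ v) := by
  simp [DformU, map_ofNat]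

theorem DformV_map (u v : R) : φ (DformV u v) = DformV (φ u) (φ v) := by
  simp [DformV, map_ofNat]

theorem c4fam_map (c₄ c₆ Δ t : R) :
    φ (c4fam c₄ c₆ Δ t) = c4fam (φ c₄) (φ c₆) (φ Δ) (φ t) := by
  simp [c4fam, map_ofNat]

theorem c6fam_map (c₄ c₆ Δ t : R) :
    φ (c6fam c₄ c₆ Δ t) = c6fam (φ c₄) (φ c₆) (φ Δ) (φ t) := by
  simp [c6fam, map_ofNat]

theorem Dfam_map (c₄ c₆ Δ t : R) :
    φ (Dfam c₄ c₆ Δ t) = Dfam (φ c₄) (φ c₆) (φ Δ) (φ t) := by
  simp [Dfam, map_ofNat]

end maps

theorem sq_eq {R : Type*} [CommRing R] (u v t : R) :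
    c6form (u - t * DformV u v) (v + t * DformU u v) ^ 2
      = c6fam (c4form u v) (c6form u v) (Dform u v ^ 5) t ^ 2 := by
  have h1 := syzygy (u - t * DformV u v) (v + t * DformU u v)
  have h2 := Rel.fam_relation_gen (c4form u v) (c6form u v) (Dform u v ^ 5) t
  have h3 := syzygy u v
  rw [c4form_shift, Dform_shift] at h1
  rw [show c4form u v ^ 3 - c6form u v ^ 2 - 1728 * Dform u v ^ 5 = 0 by linear_combination h3,
    mul_zero] at h2
  linear_combination h2 - h1

/-- the universal case. -/
theorem univ :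
    c6form ((MvPolynomial.X 0 : MvPolynomial (Fin 3) ℤ)
        - MvPolynomial.X 2 * DformV (MvPolynomial.X 0) (MvPolynomial.X 1))
      (MvPolynomial.X 1 + MvPolynomial.X 2 * DformU (MvPolynomial.X 0) (MvPolynomial.X 1))
      = c6fam (c4form (MvPolynomial.X 0) (MvPolynomial.X 1))
          (c6form (MvPolynomial.X 0) (MvPolynomial.X 1))
          (Dform (MvPolynomial.X 0) (MvPolynomial.X 1) ^ 5) (MvPolynomial.X 2) := by
  have h := sq_eq (MvPolynomial.X 0 : MvPolynomial (Fin 3) ℤ) (MvPolynomial.X 1) (MvPolynomial.X 2)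
  rcases sq_eq_sq_iff_eq_or_eq_neg.1 h with h | h
  · exact h
  · exfalso
    let ψ : MvPolynomial (Fin 3) ℤ →+* ℤ := (MvPolynomial.aeval ![(0 : ℤ), 1, 0]).toRingHom
    have h0 : ψ (MvPolynomial.X 0) = 0 := by simp [ψ]
    have h1 : ψ (MvPolynomial.X 1) = 1 := by simp [ψ]
    have h2 : ψ (MvPolynomial.X 2) = 0 := by simp [ψ]
    have h' := congrArg ψ h
    rw [map_neg, c6form_map, c6fam_map, map_sub, map_add, map_mul, map_mul, map_pow, c4form_map,
      c6form_map, Dform_map, h0, h1, h2] at h'
    norm_num [c6form, c6fam] at h'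

end Expand

theorem c6form_shift {R : Type*} [CommRing R] (u v t : R) :
    c6form (u - t * DformV u v) (v + t * DformU u v)
      = c6fam (c4form u v) (c6form u v) (Dform u v ^ 5) t := by
  let ψ : MvPolynomial (Fin 3) ℤ →+* R := (MvPolynomial.aeval ![u, v, t]).toRingHom
  have h0 : ψ (MvPolynomial.X 0) = u := by simp [ψ]
  have h1 : ψ (MvPolynomial.X 1) = v := by simp [ψ]
  have h2 : ψ (MvPolynomial.X 2) = t := by simp [ψ]
  have h' := congrArg ψ Expand.univ
  rw [Expand.c6form_map, Expand.c6fam_map, map_sub, map_add, map_mul, map_mul, map_pow,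
    Expand.c4form_map, Expand.c6form_map, Expand.Dform_map, Expand.DformU_map, Expand.DformV_map,
    h0, h1, h2] at h'
  exact h'

end Fermat.Agent.S52
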