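import Fermat.Agent.S52.Defs

/-!
# S52, chapter FAM, task Expand: the family is the icosahedral form on the line through `(u, v)`
in the direction `(-D_v, D_u)`.
-/

set_option autoImplicit false

namespace Fermat.Agent.S52

set_option maxHeartbeats 0 in
set_option maxRecDepth 100000 in
theorem c4form_shift {R : Type*} [CommRing R] (u v t : R) :
    c4form (u - t * DformV u v) (v + t * DformU u v)
      = c4fam (c4form u v) (c6form u v) (Dform u v ^ 5) t := by
  unfold c4fam Dform DformU DformV c4form c6form
  ring

end Fermat.Agent.S52
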